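import Fermat.Agent.RT6.UnitType
import Fermat.Agent.FlatModel.Quot

/-!
# Extensions of unit type have finite flat models

If a finite Galois module `T` is, over the inertia group of a place `P` over `p`, an extension of an
unramified module `Y` by a multiplicative module `X` whose classes are of unit type, then `T` has a
finite flat model over `ℤ₍p₎`.
-/

set_option autoImplicit false
set_option linter.style.haveILetI false
set_option linter.unusedVariables false

noncomputable section

namespace Fermat.Agent.RT6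

open Fermat.Agent.FlatOrd Fermat.Agent.Flat Fermat.Agent.Flat.Descent

local notation "Ω" => AlgebraicClosure ℚ
local notation "Γℚ" => (AlgebraicClosure ℚ ≃ₐ[ℚ] AlgebraicClosure ℚ)

theorem finite_addChar (X : Type) [AddCommGroup X] [Finite X] : Finite (AddChar X Ω) := by
  have : Finite (Multiplicative X) := inferInstanceAs (Finite X)
  have : Finite (Multiplicative X →* Ωˣ) := by
    have hexp : NeZero ((Monoid.exponent (Multiplicative X) : ℕ) : Ω) := ⟨by
      exact_mod_cast (Monoid.exponent_ne_zero_of_finite)⟩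
    obtain ⟨e⟩ := CommGroup.monoidHom_mulEquiv_of_hasEnoughRootsOfUnity (Multiplicative X) Ω
    exact Finite.of_equiv _ e.symm.toEquiv
  refine Finite.of_injective (fun χ : AddChar X Ω => ofChar χ) fun χ χ' h => ?_
  ext m
  have := congrArg (fun φ : Multiplicative X →* Ωˣ => ((φ (Multiplicative.ofAdd m) : Ωˣ) : Ω)) h
  exact this

theorem exists_char_ne {X : Type} [AddCommGroup X] [Finite X] {x x' : X} (h : x ≠ x') :
    ∃ χ : AddChar X Ω, χ x ≠ χ x' := by
  have hfin : Finite (Multiplicative X) := inferInstanceAs (Finite X)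
  have hexp : NeZero ((Monoid.exponent (Multiplicative X) : ℕ) : Ω) := ⟨by
    exact_mod_cast (Monoid.exponent_ne_zero_of_finite)⟩
  obtain ⟨φ, hφ⟩ := CommGroup.exists_apply_ne_one_of_hasEnoughRootsOfUnity (Multiplicative X) Ω
    (a := Multiplicative.ofAdd (x - x')) (fun h0 => h (sub_eq_zero.1
      (Multiplicative.ofAdd.injective h0)))
  refine ⟨toChar φ, fun h0 => hφ ?_⟩
  apply Units.ext
  have h1 : toChar φ x = toChar φ (x - x') * toChar φ x' := by
    rw [← AddChar.map_add_eq_mul, sub_add_cancel]
  rw [h0] at h1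
  have h2 : toChar φ x' ≠ 0 := by
    rw [toChar_apply]
    exact Units.ne_zero _
  have h3 : toChar φ (x - x') = 1 := mul_right_cancel₀ h2 (by rw [one_mul]; exact h1.symm)
  exact h3

/-- **Extensions of unit type are finite flat.** -/
theorem isFlatModel_of_unitType {p : ℕ} (hp : p.Prime) {P : ValuationSubring Ω}
    (hP : P.LiesOverPrime p) {T : Type} [AddCommGroup T] [Finite T] (act : Γℚ → T → T)
    (h1 : ∀ t, act 1 t = t) (hmul : ∀ σ τ t, act (σ * τ) t = act σ (act τ t))
    (hadd : ∀ σ s t, act σ (s + t) = act σ s + act σ t)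
    (hsm : ∀ t, ∃ L : IntermediateField ℚ Ω, FiniteDimensional ℚ L ∧
      ∀ σ : Γℚ, (∀ x ∈ L, σ x = x) → act σ t = t)
    {X Y : Type} [AddCommGroup X] [AddCommGroup Y] (e : T ≃+ X × Y) {N : ℕ} (hN : N ≠ 0)
    (hX : ∀ x : X, N • x = 0) (B : Γℚ → Y → X)
    (hI : ∀ σ ∈ P.inertiaSubgroupIn ℚ, ∃ a : ℕ, ActsAs N σ a ∧
      ∀ t, e (act σ t) = (a • (e t).1 + B σ (e t).2, (e t).2))
    (hB : ∀ y, UnitType P (fun σ => B σ y)) : IsFlatModel p T act := by
  classical
  have hfact : Fact p.Prime := ⟨hp⟩
  have hXY : Finite (X × Y) := Finite.of_equiv T e.toEquiv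
  have hXfin : Finite X := Finite.of_surjective (Prod.fst : X × Y → X) (fun x => ⟨(x, 0), rfl⟩)
  have hYfin : Finite Y := Finite.of_surjective (Prod.snd : X × Y → Y) (fun y => ⟨(0, y), rfl⟩)
  have hchar := finite_addChar X
  choose β hβ hβσ using fun (χ : AddChar X Ω) (y : Y) => hB y χ
  have hβ0 : ∀ χ y, β χ y ≠ 0 := fun χ y => ne_zero_of_val P (hβ χ y)
  -- the functions
  let F : AddChar X Ω → Y → T → Ω := fun χ y t =>
    if (e t).2 = y then χ (e t).1 * β χ y else 0
  have hF : ∀ χ y t, F χ y t = if (e t).2 = y then χ (e t).1 * β χ y else 0 := fun _ _ _ => rfl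
  refine isFlatModel_of_local_generators p P hP act h1 hmul hadd hsm
    (Set.range fun q : AddChar X Ω × Y => F q.1 q.2) (Set.finite_range _) ?_ ?_ ?_ ?_
  · rintro _ ⟨⟨χ, y⟩, rfl⟩ t
    change F χ y t ∈ P
    rw [hF]
    split_ifs
    · refine P.mul_mem _ _ ?_ ?_
      · exact ((val_eq_one_iff P (by
          intro h0
          have := char_pow hX χ (e t).1
          rw [h0, zero_pow hN] at this
          exact zero_ne_one this)).1 (val_root P hN (char_pow hX χ _))).1
      · exact ((val_eq_one_iff P (hβ0 χ y)).1 (hβ χ y)).1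
    · exact P.zero_mem
  · rintro _ ⟨⟨χ, y⟩, rfl⟩ σ hσ t
    change F χ y (act σ t) = σ (F χ y t)
    obtain ⟨a, ha, hact⟩ := hI σ hσ
    rw [hF, hF, hact]
    dsimp only
    by_cases hy : (e t).2 = y
    · rw [if_pos hy, if_pos hy, map_mul, hβσ χ y σ hσ, ha.char hX, hy, AddChar.map_add_eq_mul]
      ring
    · rw [if_neg hy, if_neg hy, map_zero]
  · intro s t hst
    apply e.injective
    have h2 : (e s).2 = (e t).2 := by
      by_contra hne
      have := hst _ ⟨(0, (e s).2), rfl⟩
      change F 0 (e s).2 s = F 0 (e s).2 t at this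
      rw [hF, hF, if_pos rfl, if_neg (Ne.symm hne), AddChar.zero_apply, one_mul] at this
      exact hβ0 _ _ this
    have h3 : (e s).1 = (e t).1 := by
      by_contra hne
      obtain ⟨χ, hχ⟩ := exists_char_ne hne
      have := hst _ ⟨(χ, (e s).2), rfl⟩
      change F χ (e s).2 s = F χ (e s).2 t at this
      rw [hF, hF, if_pos rfl, if_pos h2.symm] at this
      exact hχ (mul_right_cancel₀ (hβ0 _ _) this)
    exact Prod.ext h3 h2
  · rintro _ ⟨⟨χ, y⟩, rfl⟩
    obtain ⟨n, ⟨f⟩⟩ : ∃ n, Nonempty (Fin n ≃ Y) := by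
      obtain ⟨n, ⟨f⟩⟩ := Finite.exists_equiv_fin Y
      exact ⟨n, ⟨f.symm⟩⟩
    refine ⟨n, fun i => F χ (f i),
      fun i => (β χ y / (β χ (f i) * β χ (y - f i))) • F χ (y - f i), fun i => ?_, fun i => ?_, ?_⟩
    · exact Algebra.subset_adjoin ⟨(χ, f i), rfl⟩
    · refine smul_mem_of_mem (A := P)
        (M := Subalgebra.toSubmodule (Algebra.adjoin P
          (Set.range fun q : AddChar X Ω × Y => F q.1 q.2))) ?_
        (Algebra.subset_adjoin ⟨(χ, y - f i), rfl⟩)
      refine ((val_eq_one_iff P ?_).1 ?_).1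
      · exact div_ne_zero (hβ0 _ _) (mul_ne_zero (hβ0 _ _) (hβ0 _ _))
      · rw [map_div₀, map_mul, hβ, hβ, hβ, one_mul, div_one]
    · intro s t
      change F χ y (s + t) = ∑ i, F χ (f i) s *
        ((β χ y / (β χ (f i) * β χ (y - f i))) • F χ (y - f i)) t
      have h4 : ∀ i, F χ (f i) s * ((β χ y / (β χ (f i) * β χ (y - f i))) • F χ (y - f i)) t =
          if f i = (e s).2 then (if (e s).2 + (e t).2 = y then
            χ (e s).1 * χ (e t).1 * β χ y else 0) else 0 := by
        intro i
        rw [Pi.smul_apply, smul_eq_mul, hF, hF]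
        by_cases hi : f i = (e s).2
        · rw [if_pos hi.symm, if_pos hi]
          by_cases hy : (e s).2 + (e t).2 = y
          · have hy' : (e t).2 = y - f i := by rw [hi, ← hy]; abel
            rw [if_pos hy', if_pos hy]
            have h5 := hβ0 χ (f i)
            have h6 := hβ0 χ (y - f i)
            field_simp
          · have hy' : ¬ (e t).2 = y - f i := by
              intro h
              apply hy
              rw [h, hi]
              abel
            rw [if_neg hy', if_neg hy, mul_zero, mul_zero]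
        · rw [if_neg (fun h => hi h.symm), if_neg hi, zero_mul]
      rw [Finset.sum_congr rfl fun i _ => h4 i, hF]
      have h5 : ∑ i, (if f i = (e s).2 then (if (e s).2 + (e t).2 = y then
            χ (e s).1 * χ (e t).1 * β χ y else 0) else (0 : Ω)) =
          if (e s).2 + (e t).2 = y then χ (e s).1 * χ (e t).1 * β χ y else 0 := by
        rw [Finset.sum_eq_single (f.symm (e s).2)]
        · rw [if_pos (f.apply_symm_apply _)]
        · intro i _ hi
          rw [if_neg]
          intro h
          exact hi (by rw [← h, f.symm_apply_apply])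
        · intro h
          exact absurd (Finset.mem_univ _) h
      rw [h5, map_add]
      change (if (e s).2 + (e t).2 = y then χ ((e s).1 + (e t).1) * β χ y else 0) = _
      by_cases hy : (e s).2 + (e t).2 = y
      · rw [if_pos hy, if_pos hy, AddChar.map_add_eq_mul]
      · rw [if_neg hy, if_neg hy]

end Fermat.Agent.RT6
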