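import Fermat.Agent.RT6.FlatOfUnit
import Fermat.Agent.DefCond.Ordinary
import Fermat.Agent.DefCond.Flat
import Fermat.Agent.DefRing.Dictionary

/-!
# Ordinary representations and flatness

For an ordinary representation with cyclotomic determinant over a local ring `A` and an ideal `I`
with `A / I` finite we define the valuation `v ∈ A / I` of the extension class over inertia, show
that it is killed by `δ ^ 2 - 1` (`δ` the unramified quotient character) and that the level `V / I V`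
has a finite flat model when it vanishes.
-/

set_option autoImplicit false
set_option linter.style.haveILetI false
set_option linter.unusedVariables false

noncomputable section

namespace Fermat.Agent.RT6

open IsLocalRing Fermat.Agent.DefCond Fermat.FlatModel

local notation "Ω" => AlgebraicClosure ℚ
local notation "Γℚ" => (AlgebraicClosure ℚ ≃ₐ[ℚ] AlgebraicClosure ℚ)

variable {A : Type} [CommRing A] [IsLocalRing A] (ρ : GaloisRepAdic A)
  (b : Module.Basis (Fin 2) A ρ.V)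

theorem coef_mul (σ τ : Γℚ) (i j : Fin 2) :
    coef ρ b (σ * τ) i j = coef ρ b σ i 0 * coef ρ b τ 0 j + coef ρ b σ i 1 * coef ρ b τ 1 j := by
  have h : coef ρ b (σ * τ) i j = b.repr (ρ.ρ σ (ρ.ρ τ (b j))) i := by
    rw [coef, map_mul]; rfl
  rw [h, apply_basis ρ b τ j, map_add, map_smul, map_smul, map_add, map_smul, map_smul,
    Finsupp.add_apply, Finsupp.smul_apply, Finsupp.smul_apply, smul_eq_mul, smul_eq_mul]
  change coef ρ b τ 0 j * coef ρ b σ i 0 + coef ρ b τ 1 j * coef ρ b σ i 1 = _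
  ring

theorem repr_apply_zero (σ : Γℚ) (v : ρ.V) :
    b.repr (ρ.ρ σ v) 0 = b.repr v 0 * coef ρ b σ 0 0 + b.repr v 1 * coef ρ b σ 0 1 := by
  conv_lhs => rw [← b.sum_repr v]
  rw [Fin.sum_univ_two, map_add, map_smul, map_smul, map_add, map_smul, map_smul]
  rfl

variable {ρ b} {P : ValuationSubring Ω} {p : ℕ}

theorem actsAs_iff {n : ℕ} {σ : Γℚ} {a : ℕ} :
    ActsAs (p ^ n) σ a ↔ ∀ μ : AlgebraicClosure ℚ, μ ^ p ^ n = 1 → σ μ = μ ^ a := Iff.rfl

theorem exists_actsAs {N : ℕ} (hN : N ≠ 0) (σ : Γℚ) : ∃ a : ℕ, ActsAs N σ a := by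
  have : NeZero N := ⟨hN⟩
  have hN0 : NeZero (N : Ω) := ⟨by exact_mod_cast hN⟩
  obtain ⟨ζ, hζ⟩ := HasEnoughRootsOfUnity.exists_primitiveRoot Ω N
  have h1 : (σ ζ) ^ N = 1 := by rw [← map_pow, hζ.pow_eq_one, map_one]
  obtain ⟨a, -, ha⟩ := hζ.eq_pow_of_pow_eq_one h1
  refine ⟨a, fun μ hμ => ?_⟩
  obtain ⟨i, -, rfl⟩ := hζ.eq_pow_of_pow_eq_one hμ
  rw [map_pow, ← ha, ← pow_mul, ← pow_mul, mul_comm]

/-- the standing data -/
structure Setup (ρ : GaloisRepAdic A) (b : Module.Basis (Fin 2) A ρ.V) (P : ValuationSubring Ω)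
    (p : ℕ) (I : Ideal A) (n : ℕ) : Prop where
  hp : p.Prime
  hP : P.LiesOverPrime p
  hdet : ρ.DetIsCyclotomic p
  hord : OrdBasis ρ P b
  hfin : Finite (A ⧸ I)
  hle : maximalIdeal A ^ n ≤ I

namespace Setup

variable {I : Ideal A} {n : ℕ} (S : Setup ρ b P p I n)

include S

theorem N_ne : p ^ n ≠ 0 := pow_ne_zero _ S.hp.ne_zero

theorem pow_mem : ((p ^ n : ℕ) : A) ∈ I := by
  push_cast
  exact S.hle (Ideal.pow_mem_pow S.hdet.1 n)

theorem nsmul_eq_zero (m : A ⧸ I) : (p ^ n) • m = 0 := by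
  obtain ⟨a, rfl⟩ := Ideal.Quotient.mk_surjective m
  rw [← map_nsmul, nsmul_eq_mul, Ideal.Quotient.eq_zero_iff_mem]
  exact Ideal.mul_mem_right _ _ S.pow_mem

/-- the determinant modulo `I` -/
theorem det_sub_mem {σ : Γℚ} {a : ℕ} (ha : ActsAs (p ^ n) σ a) :
    LinearMap.det (ρ.ρ σ) - (a : A) ∈ I :=
  (Ideal.span_singleton_le_iff_mem _).2 S.pow_mem (S.hdet.2 n σ a ha)

theorem coef_zero_zero {σ : Γℚ} (hσ : σ ∈ P.inertiaSubgroupIn ℚ) {a : ℕ}
    (ha : ActsAs (p ^ n) σ a) :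
    Ideal.Quotient.mk I (coef ρ b σ 0 0) = a := by
  have h1 := S.det_sub_mem ha
  rw [det_eq_of_ordBasis ρ S.hord (inertia_le_decomposition P hσ), S.hord.2 σ hσ, mul_one] at h1
  rw [← map_natCast (Ideal.Quotient.mk I), Ideal.Quotient.eq]
  exact h1

/-- The class over inertia. -/
def cls (S : Setup ρ b P p I n) (σ : Γℚ) : A ⧸ I := Ideal.Quotient.mk I (coef ρ b σ 0 1)

theorem cls_apply (σ : Γℚ) : S.cls σ = Ideal.Quotient.mk I (coef ρ b σ 0 1) := rfl

theorem cls_mul {σ τ : Γℚ} (hσ : σ ∈ P.inertiaSubgroupIn ℚ) (hτ : τ ∈ P.inertiaSubgroupIn ℚ)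
    {a : ℕ} (ha : ActsAs (p ^ n) σ a) : S.cls (σ * τ) = S.cls σ + a • S.cls τ := by
  rw [cls_apply, coef_mul, S.hord.2 τ hτ, mul_one, map_add, map_mul, S.coef_zero_zero hσ ha,
    nsmul_eq_mul, add_comm]
  rfl

theorem cls_level : ∃ F : IntermediateField ℚ Ω, FiniteDimensional ℚ F ∧
    ∀ σ ∈ P.inertiaSubgroupIn ℚ, (∀ x ∈ F, σ x = x) → S.cls σ = 0 := by
  obtain ⟨F, hF, h1⟩ := ρ.isAdicContinuous n
  refine ⟨F, hF, fun σ _ hσ => ?_⟩
  rw [cls_apply, Ideal.Quotient.eq_zero_iff_mem]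
  have h2 := (UDef.mem_smul_top_iff b _ _).1 (h1 σ hσ (b 1)) 0
  rw [map_sub, Finsupp.sub_apply, Module.Basis.repr_self,
    Finsupp.single_eq_of_ne (by decide), sub_zero] at h2
  exact S.hle h2

/-- Existence of the valuation of the class. -/
theorem exists_v (R : RootData p (p ^ n)) :
    ∃ v : A ⧸ I, UnitType P (fun σ => S.cls σ - R.κ σ • v) := by
  have := S.hfin
  exact exists_val S.hp S.hP S.N_ne S.nsmul_eq_zero R
    (fun σ hσ τ hτ a ha => S.cls_mul hσ hτ ha) S.cls_level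

/-- The decomposition group relation. -/
theorem conj_rel {δ σ : Γℚ} (hδ : δ ∈ P.decompositionSubgroup ℚ)
    (hσ : σ ∈ P.inertiaSubgroupIn ℚ) {a d : ℕ} (ha : ActsAs (p ^ n) σ a)
    (hd : ActsAs (p ^ n) δ d) :
    d • S.cls (δ⁻¹ * σ * δ) =
      Ideal.Quotient.mk I (coef ρ b δ 1 1 ^ 2) * S.cls σ +
        (a • (Ideal.Quotient.mk I (coef ρ b δ 1 1) * S.cls δ) -
          Ideal.Quotient.mk I (coef ρ b δ 1 1) * S.cls δ) := by
  have hσ' := Flat.Descent.conj_mem_inertia P hδ hσ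
  have e1 : σ * δ = δ * (δ⁻¹ * σ * δ) := by group
  have h1 := congrArg (Ideal.Quotient.mk I) (coef_mul ρ b σ δ 0 1)
  have h2 := congrArg (Ideal.Quotient.mk I) (coef_mul ρ b δ (δ⁻¹ * σ * δ) 0 1)
  rw [← e1] at h2
  rw [h1, S.hord.2 _ hσ', mul_one, map_add, map_add, map_mul, map_mul, map_mul,
    S.coef_zero_zero hσ ha] at h2
  have h3 := S.det_sub_mem hd
  rw [det_eq_of_ordBasis ρ S.hord hδ, ← Ideal.Quotient.eq, map_mul, map_natCast] at h3
  rw [nsmul_eq_mul, nsmul_eq_mul, ← h3, map_pow, cls_apply, cls_apply, cls_apply]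
  linear_combination (- Ideal.Quotient.mk I (coef ρ b δ 1 1)) * h2

theorem κ_conj (R : RootData p (p ^ n)) (v : A ⧸ I) {δ σ : Γℚ} {a d : ℕ}
    (ha : ActsAs (p ^ n) σ a) (hd : ActsAs (p ^ n) δ d) :
    (d * R.κ (δ⁻¹ * σ * δ)) • v = R.κ σ • v + (a • (R.κ δ • v) - R.κ δ • v) := by
  have hϖ0 := ϖ_ne_zero S.hp.ne_zero S.N_ne R
  have hζN : R.ζ ^ p ^ n = 1 := R.prim.pow_eq_one
  have h1 : δ ((δ⁻¹ * σ * δ) R.ϖ) = σ (δ R.ϖ) := by
    change δ (δ⁻¹ (σ (δ R.ϖ))) = _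
    rw [AlgEquiv.aut_inv, AlgEquiv.apply_symm_apply]
  rw [R.hκ, R.hκ δ, map_mul, map_mul, map_pow, map_pow, hd _ hζN, ha _ hζN, R.hκ δ, R.hκ σ,
    ← mul_assoc, ← mul_assoc] at h1
  have h2 := mul_right_cancel₀ hϖ0 h1
  rw [← pow_mul, ← pow_mul, ← pow_add, ← pow_add] at h2
  have h3 : (d * R.κ (δ⁻¹ * σ * δ) + R.κ δ) ≡ (a * R.κ δ + R.κ σ) [MOD p ^ n] := by
    have hpos : 0 < p ^ n := Nat.pos_of_ne_zero S.N_ne
    have hmod : ∀ k, R.ζ ^ k = R.ζ ^ (k % p ^ n) := fun k => by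
      conv_lhs => rw [← Nat.div_add_mod k (p ^ n), pow_add, pow_mul, hζN, one_pow, one_mul]
    rw [hmod, hmod (a * R.κ δ + R.κ σ)] at h2
    exact R.prim.pow_inj (Nat.mod_lt _ hpos) (Nat.mod_lt _ hpos) h2
  -- translate to multiples of `v`
  have key : ∀ {x y : ℕ}, x ≡ y [MOD p ^ n] → x • v = y • v := by
    intro x y hxy
    have h4 : addOrderOf v ∣ p ^ n := addOrderOf_dvd_of_nsmul_eq_zero (S.nsmul_eq_zero v)
    rw [← mod_addOrderOf_nsmul, ← mod_addOrderOf_nsmul (x := v) y, (hxy.of_dvd h4)]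
  have h5 := key h3
  rw [add_nsmul, add_nsmul] at h5
  have h6 : (d * R.κ (δ⁻¹ * σ * δ)) • v = a • (R.κ δ • v) + R.κ σ • v - R.κ δ • v := by
    rw [← mul_nsmul', ← h5]
    abel
  rw [h6]
  abel

/-- The valuation of the class is killed by `δ ^ 2 - 1`. -/
theorem sq_sub_one_mul (R : RootData p (p ^ n)) {v : A ⧸ I}
    (hv : UnitType P (fun σ => S.cls σ - R.κ σ • v)) {δ : Γℚ}
    (hδ : δ ∈ P.decompositionSubgroup ℚ) :
    Ideal.Quotient.mk I (coef ρ b δ 1 1 ^ 2 - 1) * v = 0 := by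
  have := S.hfin
  obtain ⟨d, hd⟩ := exists_actsAs S.N_ne δ
  set z := Ideal.Quotient.mk I (coef ρ b δ 1 1) with hz
  -- first: conjugate
  have h1 := hv.conj S.nsmul_eq_zero hδ hd
  -- second: multiply by `z ^ 2`
  have h2 := hv.map (AddMonoidHom.mulLeft (z ^ 2))
  have h3 := h2.sub h1
  -- coboundaries
  have h4 : UnitType P (fun σ => (d • S.cls (δ⁻¹ * σ * δ) - z ^ 2 * S.cls σ)) := by
    refine unitType_coboundary S.N_ne S.nsmul_eq_zero (z * S.cls δ) _ fun σ hσ => ?_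
    obtain ⟨a, ha⟩ := exists_actsAs S.N_ne σ
    refine ⟨a, ha, ?_⟩
    rw [S.conj_rel hδ hσ ha hd, map_pow]
    abel
  have h5 : UnitType P (fun σ => (d * R.κ (δ⁻¹ * σ * δ)) • v - R.κ σ • v) := by
    refine unitType_coboundary S.N_ne S.nsmul_eq_zero (R.κ δ • v) _ fun σ hσ => ?_
    obtain ⟨a, ha⟩ := exists_actsAs S.N_ne σ
    refine ⟨a, ha, ?_⟩
    rw [S.κ_conj R v ha hd]
    abel
  have h6 := (h3.add h4).sub h5
  have h7 : UnitType P (fun σ => R.κ σ • (- (Ideal.Quotient.mk I (coef ρ b δ 1 1 ^ 2 - 1) * v))) := by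
    refine h6.congr fun σ hσ => ?_
    simp only [AddMonoidHom.coe_mulLeft, map_sub, map_pow, map_one, ← hz, smul_sub,
      smul_neg, sub_mul, one_mul, nsmul_eq_mul]
    push_cast
    ring
  have h8 := val_unique S.hp S.hP S.N_ne S.nsmul_eq_zero R h7
  exact neg_eq_zero.1 h8

/-- The quotient `V / I V` in coordinates. -/
def levelEquiv (S : Setup ρ b P p I n) :
    (ρ.V ⧸ (I • (⊤ : Submodule A ρ.V))) ≃+ (A ⧸ I) × (A ⧸ I) := by
  let f : ρ.V →ₗ[A] (A ⧸ I) × (A ⧸ I) :=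
    LinearMap.prod ((Ideal.Quotient.mkₐ A I).toLinearMap ∘ₗ b.coord 0)
      ((Ideal.Quotient.mkₐ A I).toLinearMap ∘ₗ b.coord 1)
  have hf : ∀ v, f v = (Ideal.Quotient.mk I (b.repr v 0), Ideal.Quotient.mk I (b.repr v 1)) :=
    fun v => rfl
  have hker : ∀ v, f v = 0 ↔ v ∈ I • (⊤ : Submodule A ρ.V) := by
    intro v
    rw [UDef.mem_smul_top_iff b, hf, Prod.mk_eq_zero, Ideal.Quotient.eq_zero_iff_mem,
      Ideal.Quotient.eq_zero_iff_mem]
    constructor
    · rintro ⟨h1, h2⟩ i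
      fin_cases i
      · exact h1
      · exact h2
    · intro h
      exact ⟨h 0, h 1⟩
  refine (LinearEquiv.ofBijective (Submodule.liftQ _ f (fun v hv => (hker v).2 hv))
    ⟨?_, ?_⟩).toAddEquiv
  · rw [← LinearMap.ker_eq_bot, LinearMap.ker_eq_bot']
    intro x hx
    obtain ⟨v, rfl⟩ := Submodule.Quotient.mk_surjective _ x
    rw [Submodule.liftQ_apply, hker] at hx
    rwa [Submodule.Quotient.mk_eq_zero]
  · rintro ⟨x, y⟩
    obtain ⟨x, rfl⟩ := Ideal.Quotient.mk_surjective x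
    obtain ⟨y, rfl⟩ := Ideal.Quotient.mk_surjective y
    refine ⟨Submodule.Quotient.mk (x • b 0 + y • b 1), ?_⟩
    rw [Submodule.liftQ_apply, hf]
    simp

theorem levelEquiv_mk (v : ρ.V) : S.levelEquiv (Submodule.Quotient.mk v) =
    (Ideal.Quotient.mk I (b.repr v 0), Ideal.Quotient.mk I (b.repr v 1)) := rfl

/-- **Vanishing valuation implies finite flat.** -/
theorem hasFlatModel (h : UnitType P S.cls) : HasFlatModel p (levelAct ρ I) := by
  have hfin := S.hfin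
  have hT : Finite (ρ.V ⧸ (I • (⊤ : Submodule A ρ.V))) :=
    Finite.of_equiv _ S.levelEquiv.symm.toEquiv
  have h1 := isFlatModel_of_unitType S.hp S.hP (T := ρ.V ⧸ (I • (⊤ : Submodule A ρ.V)))
    (fun σ t => levelAct ρ I σ t) (fun t => by rw [map_one]; rfl)
    (fun σ τ t => by rw [map_mul]; rfl) (fun σ s t => map_add _ s t) ?_ S.levelEquiv
    (N := p ^ n) S.N_ne S.nsmul_eq_zero (fun σ y => S.cls σ * y) ?_ ?_
  · exact h1
  · intro t
    obtain ⟨v, rfl⟩ := Submodule.Quotient.mk_surjective _ t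
    obtain ⟨F, hF, h2⟩ := ρ.isAdicContinuous n
    refine ⟨F, hF, fun σ hσ => ?_⟩
    rw [levelAct_apply, levelAction_mk, Submodule.Quotient.eq]
    exact Submodule.smul_mono_left S.hle (h2 σ hσ v)
  · intro σ hσ
    obtain ⟨a, ha⟩ := exists_actsAs S.N_ne σ
    refine ⟨a, ha, fun t => ?_⟩
    obtain ⟨v, rfl⟩ := Submodule.Quotient.mk_surjective _ t
    rw [levelAct_apply, levelAction_mk, S.levelEquiv_mk, S.levelEquiv_mk, repr_apply_zero,
      repr_apply_one, S.hord.1 σ (inertia_le_decomposition P hσ), S.hord.2 σ hσ, mul_zero, mul_one,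
      zero_add, map_add, map_mul, map_mul, S.coef_zero_zero hσ ha, nsmul_eq_mul, cls_apply]
    refine Prod.ext ?_ rfl
    dsimp only
    ring
  · intro y
    have h3 := h.map (AddMonoidHom.mulRight y)
    exact h3

/-- Passing to a larger ideal. -/
theorem cls_factor {I' : Ideal A} (S' : Setup ρ b P p I' n) (hle : I ≤ I') (σ : Γℚ) :
    Ideal.Quotient.factor hle (S.cls σ) = S'.cls σ := rfl

end Setup

end Fermat.Agent.RT6
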