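import Fermat.Agent.RT6.OrdFlat

/-!
# Ordinary representations with non-trivial `δ ^ 2` are flat
-/

set_option autoImplicit false
set_option linter.style.haveILetI false
set_option linter.unusedVariables false

noncomputable section

namespace Fermat.Agent.RT6

open IsLocalRing Fermat.Agent.DefCond Fermat.FlatModel

local notation "Ω" => AlgebraicClosure ℚ
local notation "Γℚ" => (AlgebraicClosure ℚ ≃ₐ[ℚ] AlgebraicClosure ℚ)

variable {A : Type} [CommRing A] [IsLocalRing A] {ρ : GaloisRepAdic A}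
  {b : Module.Basis (Fin 2) A ρ.V} {P : ValuationSubring Ω} {p : ℕ}

/-- **Ordinary with `δ ^ 2 - 1` regular implies flat.** -/
theorem isFlatAt_of_ordBasis [IsNoetherianRing A] (hk : Finite (ResidueField A)) (hp : p.Prime)
    (hP : P.LiesOverPrime p) (hdet : ρ.DetIsCyclotomic p) (hord : OrdBasis ρ P b)
    {δ : Γℚ} (hδ : δ ∈ P.decompositionSubgroup ℚ)
    (hreg : ∀ n, ∃ m, n ≤ m ∧ ∀ x : A, (coef ρ b δ 1 1 ^ 2 - 1) * x ∈ maximalIdeal A ^ m →
      x ∈ maximalIdeal A ^ n) : ρ.IsFlatAt p := by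
  refine isFlatAt_of_cofinal ρ p hk (fun n => maximalIdeal A ^ n) (fun I hI => ?_)
    (fun n => ?_) (fun n => ?_)
  · obtain ⟨n, hn⟩ := exists_pow_le_of_finite I hI
    exact ⟨n + 1, hn⟩
  · exact finite_quotient_pow hk n
  · obtain ⟨m, hnm, hm⟩ := hreg n
    have hle : maximalIdeal A ^ m ≤ maximalIdeal A ^ n := Ideal.pow_le_pow_right hnm
    let S : Setup ρ b P p (maximalIdeal A ^ m) m :=
      ⟨hp, hP, hdet, hord, finite_quotient_pow hk m, le_rfl⟩
    let S' : Setup ρ b P p (maximalIdeal A ^ n) m :=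
      ⟨hp, hP, hdet, hord, finite_quotient_pow hk n, hle⟩
    obtain ⟨R⟩ := exists_rootData p hp.ne_zero S.N_ne
    obtain ⟨v, hv⟩ := S.exists_v R
    have h1 := S.sq_sub_one_mul R hv hδ
    obtain ⟨x, rfl⟩ := Ideal.Quotient.mk_surjective v
    rw [← map_mul, Ideal.Quotient.eq_zero_iff_mem] at h1
    have hx := hm x h1
    refine S'.hasFlatModel ?_
    have h2 := hv.map (Ideal.Quotient.factor hle).toAddMonoidHom
    refine h2.congr fun σ _ => ?_
    change Ideal.Quotient.factor hle (S.cls σ - R.κ σ • Ideal.Quotient.mk _ x) = _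
    rw [map_sub, map_nsmul, S.cls_factor S' hle, Ideal.Quotient.factor_mk,
      Ideal.Quotient.eq_zero_iff_mem.2 hx, smul_zero, sub_zero]

/-- **Ordinary with `δ(Frob)² ≠ 1` implies flat**, over a discrete valuation ring. -/
theorem isFlatAt_of_ordBasis_dvr {𝒪 : Type} [CommRing 𝒪] [IsDomain 𝒪] [IsDiscreteValuationRing 𝒪]
    {ρ : GaloisRepAdic 𝒪} {b : Module.Basis (Fin 2) 𝒪 ρ.V} (hk : Finite (ResidueField 𝒪))
    (hp : p.Prime) (hP : P.LiesOverPrime p) (hdet : ρ.DetIsCyclotomic p) (hord : OrdBasis ρ P b)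
    {δ : Γℚ} (hδ : δ ∈ P.decompositionSubgroup ℚ) (hne : coef ρ b δ 1 1 ^ 2 ≠ 1) :
    ρ.IsFlatAt p := by
  refine isFlatAt_of_ordBasis hk hp hP hdet hord hδ fun n => ?_
  obtain ⟨ϖ, hϖ⟩ := IsDiscreteValuationRing.exists_irreducible 𝒪
  have hm : ∀ k, maximalIdeal 𝒪 ^ k = Ideal.span {ϖ ^ k} := fun k => by
    rw [(IsDiscreteValuationRing.irreducible_iff_uniformizer ϖ).1 hϖ, Ideal.span_singleton_pow]
  obtain ⟨e, u, hu⟩ := IsDiscreteValuationRing.eq_unit_mul_pow_irreducible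
    (sub_ne_zero.2 hne) hϖ
  refine ⟨n + e, Nat.le_add_right _ _, fun x hx => ?_⟩
  rw [hm, Ideal.mem_span_singleton] at hx ⊢
  rw [hu, pow_add, mul_comm (ϖ ^ n), mul_assoc, mul_comm (u : 𝒪), mul_assoc] at hx
  have h1 : ϖ ^ n ∣ x * u := (mul_dvd_mul_iff_left (pow_ne_zero e hϖ.ne_zero)).1 hx
  exact (Units.dvd_mul_right).1 h1

end Fermat.Agent.RT6
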