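import Mathlib
import Fermat.Agent.QbarInst
import Fermat.Agent.Flat.Descent
import Fermat.Agent.FlatOrd.Unramified
import Fermat.Agent.CFT.Hasse.Hilbert90

/-!
# Kummer theory on inertia: cocycles of unit type

Let `P` be a place of `ℚ̄` over `p` with inertia group `I`, and let `M` be a finite abelian group. A
cocycle `b : I → M(1)` is of unit type if for every character `χ` of `M` the cocycle `χ ∘ b` is
`σ ↦ σ β / β` for a `P`-unit `β`.
-/

set_option autoImplicit false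
set_option linter.style.haveILetI false
set_option linter.unusedVariables false

noncomputable section

namespace Fermat.Agent.RT6

open Fermat.Agent.FlatOrd Fermat.Agent.FlatOrd.Unramified Fermat.Agent.Flat
  Fermat.Agent.Flat.Descent

local notation "Ω" => AlgebraicClosure ℚ
local notation "Γℚ" => (AlgebraicClosure ℚ ≃ₐ[ℚ] AlgebraicClosure ℚ)

section Valuation

variable (P : ValuationSubring Ω)

theorem val_eq_one_iff {x : Ω} (hx : x ≠ 0) : P.valuation x = 1 ↔ x ∈ P ∧ x⁻¹ ∈ P := by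
  rw [← P.valuation_le_one_iff, ← P.valuation_le_one_iff, map_inv₀]
  have h0 : P.valuation x ≠ 0 := (Valuation.ne_zero_iff _).2 hx
  constructor
  · intro h
    rw [h, inv_one]
    exact ⟨le_rfl, le_rfl⟩
  · rintro ⟨h1, h2⟩
    refine le_antisymm h1 ?_
    rwa [inv_le_one₀ (zero_lt_iff.2 h0)] at h2

theorem ne_zero_of_val {x : Ω} (hx : P.valuation x = 1) : x ≠ 0 := by
  rintro rfl
  rw [map_zero] at hx
  exact zero_ne_one hx

theorem val_eq_one_of_pow {x : Ω} {n : ℕ} (hn : n ≠ 0) (hx : P.valuation x ^ n = 1) :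
    P.valuation x = 1 := by
  rcases lt_trichotomy (P.valuation x) 1 with h | h | h
  · exact absurd hx (pow_lt_one₀ zero_le h hn).ne
  · exact h
  · exact absurd hx (one_lt_pow₀ h hn).ne'

theorem val_root {x : Ω} {n : ℕ} (hn : n ≠ 0) (hx : x ^ n = 1) : P.valuation x = 1 :=
  val_eq_one_of_pow P hn (by rw [← map_pow, hx, map_one])

theorem val_of_decomposition {δ : Γℚ} (hδ : δ ∈ P.decompositionSubgroup ℚ) {x : Ω}
    (hx : P.valuation x = 1) : P.valuation (δ x) = 1 := by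
  have hx0 := ne_zero_of_val P hx
  have hδx : δ x ≠ 0 := by rwa [Ne, map_eq_zero]
  rw [val_eq_one_iff P hx0] at hx
  rw [val_eq_one_iff P hδx]
  refine ⟨apply_mem_of_mem_decomposition P hδ hx.1, ?_⟩
  rw [← map_inv₀]
  exact apply_mem_of_mem_decomposition P hδ hx.2

theorem inertia_le_decomposition {σ : Γℚ} (hσ : σ ∈ P.inertiaSubgroupIn ℚ) :
    σ ∈ P.decompositionSubgroup ℚ := by
  obtain ⟨τ, -, rfl⟩ := hσ
  exact τ.2

variable {P} {p : ℕ}

theorem val_p_lt (hP : P.LiesOverPrime p) : P.valuation (p : Ω) < 1 := by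
  rw [← ValuationSubring.mem_nonunits_iff]
  exact hP

/-- The inertia field is unramified: its nonzero elements are powers of `p` times units. -/
theorem exists_zpow_mul_unit (hp : p.Prime) (hP : P.LiesOverPrime p) {t : Ω} (ht0 : t ≠ 0)
    (ht : ∀ σ ∈ P.inertiaSubgroupIn ℚ, σ t = t) :
    ∃ (n : ℤ), P.valuation t = P.valuation (p : Ω) ^ n := by
  have hp0 : (p : Ω) ≠ 0 := by exact_mod_cast hp.ne_zero
  -- the integral case
  have key : ∀ t : Ω, t ≠ 0 → (∀ σ ∈ P.inertiaSubgroupIn ℚ, σ t = t) → t ∈ P →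
      ∃ (n : ℕ), P.valuation t = P.valuation (p : Ω) ^ n := by
    intro t ht0 ht htP
    classical
    have hex := exists_div_pow_notMem P hp hP t ht0
    obtain ⟨n, hn⟩ : ∃ n, Nat.find hex = n + 1 := by
      refine Nat.exists_eq_succ_of_ne_zero ?_
      intro h0
      have := Nat.find_spec hex
      rw [h0, pow_zero, div_one] at this
      exact this htP
    have h1 : t / (p : Ω) ^ n ∈ P := by
      by_contra h
      have := Nat.find_min' hex h
      omega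
    have h2 : t / (p : Ω) ^ (n + 1) ∉ P := hn ▸ Nat.find_spec hex
    have h3 : t / (p : Ω) ^ n ∉ P.nonunits := by
      intro h
      obtain ⟨s, hs, hts⟩ := exists_eq_mul_of_fixed P hp hP _ (fun σ hσ => by
        rw [map_div₀, map_pow, map_natCast, ht σ hσ]) h
      apply h2
      have : t / (p : Ω) ^ (n + 1) = s := by
        rw [pow_succ, ← div_div, hts]
        field_simp
      rw [this]
      exact hs
    have h4 : P.valuation (t / (p : Ω) ^ n) = 1 := by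
      refine le_antisymm ((P.valuation_le_one_iff _).2 h1) (not_lt.1 fun h => h3 ?_)
      rwa [ValuationSubring.mem_nonunits_iff]
    refine ⟨n, ?_⟩
    rw [map_div₀, map_pow] at h4
    exact eq_of_div_eq_one h4
  by_cases htP : t ∈ P
  · obtain ⟨n, hn⟩ := key t ht0 ht htP
    exact ⟨n, by rw [hn, zpow_natCast]⟩
  · have htP' : t⁻¹ ∈ P := (P.mem_or_inv_mem t).resolve_left htP
    obtain ⟨n, hn⟩ := key t⁻¹ (inv_ne_zero ht0) (fun σ hσ => by rw [map_inv₀, ht σ hσ]) htP'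
    refine ⟨-n, ?_⟩
    rw [map_inv₀] at hn
    rw [zpow_neg, zpow_natCast, ← hn, inv_inv]

theorem zpow_val_inj (hp : p.Prime) (hP : P.LiesOverPrime p) {a b : ℤ}
    (h : P.valuation (p : Ω) ^ a = P.valuation (p : Ω) ^ b) : a = b := by
  have hp0 : P.valuation (p : Ω) ≠ 0 := (Valuation.ne_zero_iff _).2 (by exact_mod_cast hp.ne_zero)
  have h1 := val_p_lt hP
  exact zpow_right_injective₀ (zero_lt_iff.2 hp0) h1.ne h

end Valuation

section UnitType

variable (P : ValuationSubring Ω) {M M' : Type} [AddCommGroup M] [AddCommGroup M']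

/-- Cocycles of unit type on inertia. -/
def UnitType (b : Γℚ → M) : Prop :=
  ∀ χ : AddChar M Ω, ∃ β : Ω, P.valuation β = 1 ∧
    ∀ σ ∈ P.inertiaSubgroupIn ℚ, σ β = χ (b σ) * β

variable {P}

theorem UnitType.congr {b b' : Γℚ → M} (hb : UnitType P b)
    (h : ∀ σ ∈ P.inertiaSubgroupIn ℚ, b σ = b' σ) : UnitType P b' := by
  intro χ
  obtain ⟨β, h1, h2⟩ := hb χ
  exact ⟨β, h1, fun σ hσ => by rw [← h σ hσ]; exact h2 σ hσ⟩

theorem unitType_zero : UnitType P (fun _ => (0 : M)) := fun χ =>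
  ⟨1, map_one _, fun σ _ => by rw [map_one, AddChar.map_zero_eq_one, one_mul]⟩

theorem UnitType.add {b b' : Γℚ → M} (hb : UnitType P b) (hb' : UnitType P b') :
    UnitType P (fun σ => b σ + b' σ) := by
  intro χ
  obtain ⟨β, h1, h2⟩ := hb χ
  obtain ⟨β', h1', h2'⟩ := hb' χ
  refine ⟨β * β', by rw [map_mul, h1, h1', one_mul], fun σ hσ => ?_⟩
  rw [map_mul, h2 σ hσ, h2' σ hσ, AddChar.map_add_eq_mul]
  ring

theorem UnitType.neg {b : Γℚ → M} (hb : UnitType P b) : UnitType P (fun σ => - b σ) := by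
  intro χ
  obtain ⟨β, h1, h2⟩ := hb χ
  refine ⟨β⁻¹, by rw [map_inv₀, h1, inv_one], fun σ hσ => ?_⟩
  have h3 : χ (b σ) * χ (- b σ) = 1 := by
    rw [← AddChar.map_add_eq_mul, add_neg_cancel, AddChar.map_zero_eq_one]
  have hβ0 := ne_zero_of_val P h1
  have h4 : χ (b σ) ≠ 0 := left_ne_zero_of_mul_eq_one h3
  rw [map_inv₀, h2 σ hσ]
  field_simp
  exact h3.symm

theorem UnitType.sub {b b' : Γℚ → M} (hb : UnitType P b) (hb' : UnitType P b') :
    UnitType P (fun σ => b σ - b' σ) := by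
  simp only [sub_eq_add_neg]
  exact hb.add hb'.neg

theorem UnitType.map {b : Γℚ → M} (hb : UnitType P b) (f : M →+ M') :
    UnitType P (fun σ => f (b σ)) := fun χ => by
  obtain ⟨β, h1, h2⟩ := hb (χ.compAddMonoidHom f)
  exact ⟨β, h1, h2⟩

theorem UnitType.nsmul {b : Γℚ → M} (hb : UnitType P b) (n : ℕ) :
    UnitType P (fun σ => n • b σ) := hb.map (nsmulAddMonoidHom n)

/-- `σ` acts on the roots of unity of order `n` as `ζ ↦ ζ ^ a`. -/
def ActsAs (n : ℕ) (σ : Γℚ) (a : ℕ) : Prop := ∀ μ : Ω, μ ^ n = 1 → σ μ = μ ^ a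

theorem char_pow {n : ℕ} (hn : ∀ m : M, n • m = 0) (χ : AddChar M Ω) (m : M) : χ m ^ n = 1 := by
  rw [← AddChar.map_nsmul_eq_pow, hn, AddChar.map_zero_eq_one]

theorem ActsAs.char {n : ℕ} (hn : ∀ m : M, n • m = 0) {σ : Γℚ} {a : ℕ} (h : ActsAs n σ a)
    (χ : AddChar M Ω) (m : M) : σ (χ m) = χ (a • m) := by
  rw [h _ (char_pow hn χ m), AddChar.map_nsmul_eq_pow]

/-- Coboundaries are of unit type. -/
theorem unitType_coboundary {n : ℕ} (hn0 : n ≠ 0) (hn : ∀ m : M, n • m = 0) (m : M) (b : Γℚ → M)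
    (hb : ∀ σ ∈ P.inertiaSubgroupIn ℚ, ∃ a : ℕ, ActsAs n σ a ∧ b σ + m = a • m) :
    UnitType P b := by
  intro χ
  refine ⟨χ m, val_root P hn0 (char_pow hn χ m), fun σ hσ => ?_⟩
  obtain ⟨a, ha, hbm⟩ := hb σ hσ
  rw [ha.char hn, ← hbm, AddChar.map_add_eq_mul]

/-- Conjugation by the decomposition group. -/
theorem UnitType.conj {n : ℕ} (hn : ∀ m : M, n • m = 0) {b : Γℚ → M} (hb : UnitType P b)
    {δ : Γℚ} (hδ : δ ∈ P.decompositionSubgroup ℚ) {d : ℕ} (hd : ActsAs n δ d) :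
    UnitType P (fun σ => d • b (δ⁻¹ * σ * δ)) := by
  intro χ
  obtain ⟨β, h1, h2⟩ := hb χ
  refine ⟨δ β, val_of_decomposition P hδ h1, fun σ hσ => ?_⟩
  have h3 := h2 _ (conj_mem_inertia P hδ hσ)
  have h4 := congrArg δ h3
  rw [map_mul, hd.char hn] at h4
  rw [← h4]
  change σ (δ β) = δ (δ⁻¹ (σ (δ β)))
  rw [AlgEquiv.aut_inv, AlgEquiv.apply_symm_apply]

end UnitType

section Kummer

variable {P : ValuationSubring Ω} {p : ℕ} {M : Type} [AddCommGroup M]

/-- Characters with values in units. -/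
def toChar (φ : Multiplicative M →* Ωˣ) : AddChar M Ω where
  toFun m := ((φ (Multiplicative.ofAdd m) : Ωˣ) : Ω)
  map_zero_eq_one' := by rw [ofAdd_zero, map_one, Units.val_one]
  map_add_eq_mul' a b := by rw [ofAdd_add, map_mul, Units.val_mul]

theorem toChar_apply (φ : Multiplicative M →* Ωˣ) (m : M) :
    toChar φ m = ((φ (Multiplicative.ofAdd m) : Ωˣ) : Ω) := rfl

/-- every character takes values in units -/
def ofChar (χ : AddChar M Ω) : Multiplicative M →* Ωˣ := χ.toMonoidHom.toHomUnits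

theorem ofChar_apply (χ : AddChar M Ω) (m : M) :
    ((ofChar χ (Multiplicative.ofAdd m) : Ωˣ) : Ω) = χ m := rfl

/-- Hilbert 90 for the twisted cocycle attached to a character. -/
theorem exists_gen {N : ℕ} (hM : ∀ m : M, N • m = 0) {ζ : Ω} (hζ : IsPrimitiveRoot ζ N)
    (hN0 : N ≠ 0) {b : Γℚ → M}
    (hb : ∀ σ ∈ P.inertiaSubgroupIn ℚ, ∀ τ ∈ P.inertiaSubgroupIn ℚ, ∀ a : ℕ, ActsAs N σ a →
      b (σ * τ) = b σ + a • b τ)
    (hlev : ∃ F : IntermediateField ℚ Ω, FiniteDimensional ℚ F ∧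
      ∀ σ ∈ P.inertiaSubgroupIn ℚ, (∀ x ∈ F, σ x = x) → b σ = 0)
    (φ : Multiplicative M →* Ωˣ) :
    ∃ y : Ωˣ, ∀ σ ∈ P.inertiaSubgroupIn ℚ,
      σ (y : Ω) = ((φ (Multiplicative.ofAdd (b σ)) : Ωˣ) : Ω) * y := by
  obtain ⟨F, hF, hFb⟩ := hlev
  let E : IntermediateField ℚ Ω := IntermediateField.normalClosure ℚ F Ω
  have hFE : F ≤ E := IntermediateField.le_normalClosure F
  have hE1 : FiniteDimensional ℚ E := normalClosure.is_finiteDimensional ℚ F Ω
  have hE2 : Normal ℚ E := normalClosure.normal ℚ F Ω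
  have hact : ∀ σ : Γℚ, ∃ a : ℕ, ActsAs N σ a := by
    intro σ
    have : NeZero N := ⟨hN0⟩
    have h1 : (σ ζ) ^ N = 1 := by rw [← map_pow, hζ.pow_eq_one, map_one]
    obtain ⟨a, -, ha⟩ := hζ.eq_pow_of_pow_eq_one h1
    refine ⟨a, fun μ hμ => ?_⟩
    obtain ⟨i, -, rfl⟩ := hζ.eq_pow_of_pow_eq_one hμ
    rw [map_pow, ← ha, ← pow_mul, ← pow_mul, mul_comm]
  obtain ⟨y, hy⟩ := CFT.Hasse.exists_coboundary (MonoidHom.id Γℚ) (P.inertiaSubgroupIn ℚ) E
    (fun σ => φ (Multiplicative.ofAdd (b σ))) (by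
      intro σ τ
      obtain ⟨a, ha⟩ := hact σ
      change φ (Multiplicative.ofAdd (b ((σ : Γℚ) * (τ : Γℚ)))) = _
      rw [hb σ σ.2 τ τ.2 a ha, ofAdd_add, map_mul]
      congr 1
      apply Units.ext
      have h1 := ha.char hM (toChar φ) (b τ)
      rw [toChar_apply, toChar_apply] at h1
      exact h1.symm) (by
      intro σ s hs
      obtain ⟨a, ha⟩ := hact σ
      change φ (Multiplicative.ofAdd (b ((σ : Γℚ) * (s : Γℚ)))) = _
      rw [hb σ σ.2 s s.2 a ha, hFb s s.2 (fun x hx => hs x (hFE hx)), smul_zero, add_zero])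
  refine ⟨y, fun σ hσ => ?_⟩
  have h1 := hy ⟨σ, hσ⟩
  have h2 : (φ (Multiplicative.ofAdd (b σ)) : Ωˣ) * y = (MonoidHom.id Γℚ σ) • y := by
    change (φ (Multiplicative.ofAdd (b σ)) : Ωˣ) = _ at h1
    rw [h1, div_mul_cancel]
  have h3 := congrArg (Units.val) h2
  rw [Units.val_mul] at h3
  exact h3.symm

/-- The data of a compatible root of unity and root of `p`. -/
structure RootData (p N : ℕ) where
  ζ : Ω
  prim : IsPrimitiveRoot ζ N
  ϖ : Ω
  pow_ϖ : ϖ ^ N = (p : Ω)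
  κ : Γℚ → ℕ
  hκ : ∀ σ : Γℚ, σ ϖ = ζ ^ κ σ * ϖ

theorem exists_rootData (p : ℕ) {N : ℕ} (hp : p ≠ 0) (hN : N ≠ 0) : Nonempty (RootData p N) := by
  have : NeZero N := ⟨hN⟩
  have hN0 : NeZero (N : Ω) := ⟨by exact_mod_cast hN⟩
  obtain ⟨ζ, hζ⟩ := HasEnoughRootsOfUnity.exists_primitiveRoot Ω N
  obtain ⟨ϖ, hϖ⟩ := IsAlgClosed.exists_pow_nat_eq (p : Ω) (Nat.pos_of_ne_zero hN)
  have hp0 : (p : Ω) ≠ 0 := by exact_mod_cast hp
  have hϖ0 : ϖ ≠ 0 := by
    rintro rfl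
    rw [zero_pow hN] at hϖ
    exact hp0 hϖ.symm
  have : ∀ σ : Γℚ, ∃ k : ℕ, σ ϖ = ζ ^ k * ϖ := by
    intro σ
    have h1 : (σ ϖ / ϖ) ^ N = 1 := by
      rw [div_pow, ← map_pow, hϖ, map_natCast, div_self hp0]
    obtain ⟨k, -, hk⟩ := hζ.eq_pow_of_pow_eq_one h1
    exact ⟨k, by rw [hk, div_mul_cancel₀ _ hϖ0]⟩
  choose κ hκ using this
  exact ⟨⟨ζ, hζ, ϖ, hϖ, κ, hκ⟩⟩

theorem val_ϖ {N : ℕ} (R : RootData p N) : P.valuation R.ϖ ^ N = P.valuation (p : Ω) := by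
  rw [← map_pow, R.pow_ϖ]

theorem ϖ_ne_zero {N : ℕ} (hp : p ≠ 0) (hN : N ≠ 0) (R : RootData p N) : R.ϖ ≠ 0 := by
  intro h
  have := R.pow_ϖ
  rw [h, zero_pow hN] at this
  exact hp (by exact_mod_cast this.symm)

/-- **Kummer theory**: every cocycle is the sum of a multiple of the Kummer cocycle of `p` and a
cocycle of unit type. -/
theorem exists_val [Finite M] (hp : p.Prime) (hP : P.LiesOverPrime p) {N : ℕ} (hN : N ≠ 0)
    (hM : ∀ m : M, N • m = 0) (R : RootData p N) {b : Γℚ → M}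
    (hb : ∀ σ ∈ P.inertiaSubgroupIn ℚ, ∀ τ ∈ P.inertiaSubgroupIn ℚ, ∀ a : ℕ, ActsAs N σ a →
      b (σ * τ) = b σ + a • b τ)
    (hlev : ∃ F : IntermediateField ℚ Ω, FiniteDimensional ℚ F ∧
      ∀ σ ∈ P.inertiaSubgroupIn ℚ, (∀ x ∈ F, σ x = x) → b σ = 0) :
    ∃ v : M, UnitType P (fun σ => b σ - R.κ σ • v) := by
  have hp0 : (p : Ω) ≠ 0 := by exact_mod_cast hp.ne_zero
  have hvp0 : P.valuation (p : Ω) ≠ 0 := (Valuation.ne_zero_iff _).2 hp0
  choose y hy using exists_gen (P := P) hM R.prim hN hb hlev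
  have hφN : ∀ (φ : Multiplicative M →* Ωˣ) (m : M),
      ((φ (Multiplicative.ofAdd m) : Ωˣ) : Ω) ^ N = 1 := fun φ m => char_pow hM (toChar φ) m
  have hyN : ∀ φ, ∃ n : ℤ, P.valuation ((y φ : Ω) ^ N) = P.valuation (p : Ω) ^ n := fun φ =>
    exists_zpow_mul_unit hp hP (pow_ne_zero _ (y φ).ne_zero) (fun σ hσ => by
      rw [map_pow, hy φ σ hσ, mul_pow, hφN, one_mul])
  choose n hn using hyN
  have hζ0 : R.ζ ≠ 0 := R.prim.ne_zero hN
  let ζu : Ωˣ := Units.mk0 R.ζ hζ0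
  have hζu : ζu ^ N = 1 := Units.ext (by
    rw [Units.val_pow_eq_pow_val, Units.val_mk0, R.prim.pow_eq_one, Units.val_one])
  -- additivity
  have hadd : ∀ φ ψ : Multiplicative M →* Ωˣ, ∃ k : ℤ, n (φ * ψ) = n φ + n ψ + N * k := by
    intro φ ψ
    have hne : (y (φ * ψ) : Ω) / (y φ * y ψ) ≠ 0 :=
      div_ne_zero (y _).ne_zero (mul_ne_zero (y _).ne_zero (y _).ne_zero)
    obtain ⟨k, hk⟩ := exists_zpow_mul_unit hp hP hne (fun σ hσ => by
      rw [map_div₀, map_mul, hy _ σ hσ, hy _ σ hσ, hy _ σ hσ, MonoidHom.mul_apply, Units.val_mul]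
      have h1 := (φ (Multiplicative.ofAdd (b σ))).ne_zero
      have h2 := (ψ (Multiplicative.ofAdd (b σ))).ne_zero
      have h3 := (y φ).ne_zero
      have h4 := (y ψ).ne_zero
      field_simp)
    refine ⟨k, zpow_val_inj hp hP ?_⟩
    have h1 : (y (φ * ψ) : Ω) ^ N = ((y (φ * ψ) : Ω) / (y φ * y ψ)) ^ N * ((y φ : Ω) ^ N *
        (y ψ : Ω) ^ N) := by
      rw [← mul_pow, ← mul_pow, div_mul_cancel₀ _ (mul_ne_zero (y _).ne_zero (y _).ne_zero)]
    rw [← hn, h1, map_mul, map_mul, hn, hn, map_pow, hk, ← zpow_natCast, ← zpow_mul, zpow_add₀ hvp0,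
      zpow_add₀ hvp0, mul_comm, mul_comm (N : ℤ) k]
  let η : (Multiplicative M →* Ωˣ) →* Ωˣ := MonoidHom.mk' (fun φ => ζu ^ n φ) (by
    intro φ ψ
    obtain ⟨k, hk⟩ := hadd φ ψ
    change ζu ^ n (φ * ψ) = ζu ^ n φ * ζu ^ n ψ
    rw [hk, zpow_add, zpow_add, zpow_mul, zpow_natCast, hζu, one_zpow, mul_one])
  have hfinM : Finite (Multiplicative M) := inferInstanceAs (Finite M)
  have hexp : NeZero ((Monoid.exponent (Multiplicative M) : ℕ) : Ω) := ⟨by
    exact_mod_cast (Monoid.exponent_ne_zero_of_finite)⟩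
  let v : M := Multiplicative.toAdd (CommGroup.monoidHomMonoidHomEquiv (Multiplicative M) Ω η)
  have hv : ∀ φ : Multiplicative M →* Ωˣ, φ (Multiplicative.ofAdd v) = ζu ^ n φ := fun φ =>
    CommGroup.apply_monoidHomMonoidHomEquiv (G := Multiplicative M) (M := Ω) φ η
  have hϖ0 := ϖ_ne_zero hp.ne_zero hN R
  refine ⟨v, fun χ => ?_⟩
  set φ := ofChar χ with hφ
  refine ⟨(y φ : Ω) / R.ϖ ^ n φ, ?_, fun σ hσ => ?_⟩
  · refine val_eq_one_of_pow P hN ?_
    rw [← map_pow, div_pow, map_div₀, hn, ← zpow_natCast, ← zpow_mul, mul_comm, zpow_mul,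
      zpow_natCast, map_zpow₀, map_pow, val_ϖ, div_self (zpow_ne_zero _ hvp0)]
  · have h1 : χ (b σ) = ((φ (Multiplicative.ofAdd (b σ)) : Ωˣ) : Ω) := (ofChar_apply χ _).symm
    have h2 : χ v = R.ζ ^ n φ := by
      have h3 := congrArg Units.val (hv φ)
      rw [ofChar_apply] at h3
      rw [h3, Units.val_zpow_eq_zpow_val, Units.val_mk0]
    have h4 : χ (b σ - R.κ σ • v) * (R.ζ ^ n φ) ^ R.κ σ = χ (b σ) := by
      rw [← h2, ← AddChar.map_nsmul_eq_pow, ← AddChar.map_add_eq_mul, sub_add_cancel]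
    rw [map_div₀, map_zpow₀, hy φ σ hσ, R.hκ σ, mul_zpow, ← h1, ← h4]
    have h5 : (R.ζ ^ R.κ σ) ^ n φ = (R.ζ ^ n φ) ^ R.κ σ := by
      rw [← zpow_natCast, ← zpow_natCast, ← zpow_mul, ← zpow_mul, mul_comm]
    rw [h5]
    have h6 : (R.ζ ^ n φ) ^ R.κ σ ≠ 0 := pow_ne_zero _ (zpow_ne_zero _ hζ0)
    have h7 : R.ϖ ^ n φ ≠ 0 := zpow_ne_zero _ hϖ0
    field_simp

/-- **Uniqueness of the valuation of a Kummer class.** -/
theorem val_unique [Finite M] (hp : p.Prime) (hP : P.LiesOverPrime p) {N : ℕ} (hN : N ≠ 0)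
    (hM : ∀ m : M, N • m = 0) (R : RootData p N) {v : M}
    (h : UnitType P (fun σ => R.κ σ • v)) : v = 0 := by
  have hp0 : (p : Ω) ≠ 0 := by exact_mod_cast hp.ne_zero
  have hvp0 : P.valuation (p : Ω) ≠ 0 := (Valuation.ne_zero_iff _).2 hp0
  have : NeZero N := ⟨hN⟩
  have hfinM : Finite (Multiplicative M) := inferInstanceAs (Finite M)
  have hexp : NeZero ((Monoid.exponent (Multiplicative M) : ℕ) : Ω) := ⟨by
    exact_mod_cast (Monoid.exponent_ne_zero_of_finite)⟩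
  by_contra hv0
  obtain ⟨φ, hφ⟩ := CommGroup.exists_apply_ne_one_of_hasEnoughRootsOfUnity (Multiplicative M) Ω
    (a := Multiplicative.ofAdd v) (fun h => hv0 (Multiplicative.ofAdd.injective h))
  apply hφ
  have hϖ0 := ϖ_ne_zero hp.ne_zero hN R
  have h1 : ((φ (Multiplicative.ofAdd v) : Ωˣ) : Ω) ^ N = 1 := char_pow hM (toChar φ) v
  obtain ⟨j, -, hj⟩ := R.prim.eq_pow_of_pow_eq_one h1
  obtain ⟨β, hβ, hβσ⟩ := h (toChar φ)
  obtain ⟨m, hm⟩ := exists_zpow_mul_unit hp hP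
    (div_ne_zero (ne_zero_of_val P hβ) (pow_ne_zero j hϖ0)) (fun σ hσ => by
      rw [map_div₀, map_pow, hβσ σ hσ, AddChar.map_nsmul_eq_pow, toChar_apply, ← hj, R.hκ σ,
        mul_pow, ← pow_mul, ← pow_mul, mul_comm j]
      have h6 : R.ζ ^ (R.κ σ * j) ≠ 0 := pow_ne_zero _ (R.prim.ne_zero hN)
      have h7 : R.ϖ ^ j ≠ 0 := pow_ne_zero _ hϖ0
      field_simp)
  have h2 : (j : ℤ) = - (N * m) := by
    refine zpow_val_inj hp hP ?_
    have h3 := congrArg (fun z => z ^ N) hm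
    beta_reduce at h3
    rw [map_div₀, hβ, map_pow, div_pow, one_pow, ← pow_mul, mul_comm j N, pow_mul, val_ϖ,
      ← zpow_natCast, ← zpow_natCast, ← zpow_mul, one_div, ← zpow_neg] at h3
    have h4 := zpow_val_inj hp hP h3
    congr 1
    linarith
  apply Units.ext
  rw [← hj, Units.val_one]
  have h5 : N ∣ j := by
    have : (N : ℤ) ∣ j := ⟨-m, by rw [h2]; ring⟩
    exact_mod_cast this
  obtain ⟨c, rfl⟩ := h5
  rw [pow_mul, R.prim.pow_eq_one, one_pow]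

end Kummer

end Fermat.Agent.RT6
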